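import Mathlib

/-!
# S59 / layer G4, piece GLUE (helper307): descent of a 2-dimensional representation to a subring
# of a product — matrix level

Setting (Wiles, Carayol): `T` a local ring in which `2` is a unit, `ψ i : T →+* O i` a jointly
injective family of local homomorphisms to local rings, `m i : G →* M₂(O i)` representations whose
traces come from `T` (`ψ i (τ σ) = tr (m i σ)`), `c ∈ G` an involution with `τ c = 0` (complex
conjugation), and one of the `m i` "residually irreducible" in the weak matrix form `hirr` (in every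
basis the two off-diagonal entries are units for suitable group elements).

Conclusion (`exists_glued`): there is `M : G →* M₂(T)` with `tr (M σ) = τ σ` and invertible `P i`
with `ψ i (M σ) = (P i)⁻¹ m i σ (P i)` for all `i`, `σ`.

Everything is explicit `2 × 2` matrix algebra: in an eigenbasis of `c` the diagonal entries of
`m i σ` are `(tr σ ± tr cσ)/2`, the products `b(σ) c(σ')` are `a(σσ') - a(σ) a(σ')`, and after
normalising `b(σ₁) = 1` all entries are images of elements of `T`.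
-/

set_option autoImplicit false
set_option linter.unusedSectionVars false
set_option linter.unusedVariables false

namespace Fermat.Agent.S59.H307

open Matrix

section Mat2

variable {A : Type*} [CommRing A]

theorem mat2_ext {M N : Matrix (Fin 2) (Fin 2) A} (h00 : M 0 0 = N 0 0) (h01 : M 0 1 = N 0 1)
    (h10 : M 1 0 = N 1 0) (h11 : M 1 1 = N 1 1) : M = N := by
  ext i j
  fin_cases i <;> fin_cases j
  · exact h00
  · exact h01
  · exact h10
  · exact h11

theorem mat2_mul_apply (M N : Matrix (Fin 2) (Fin 2) A) (i j : Fin 2) :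
    (M * N) i j = M i 0 * N 0 j + M i 1 * N 1 j := by
  rw [Matrix.mul_apply, Fin.sum_univ_two]

theorem mat2_of_00 (a b c d : A) : (!![a, b; c, d] : Matrix (Fin 2) (Fin 2) A) 0 0 = a := rfl
theorem mat2_of_01 (a b c d : A) : (!![a, b; c, d] : Matrix (Fin 2) (Fin 2) A) 0 1 = b := rfl
theorem mat2_of_10 (a b c d : A) : (!![a, b; c, d] : Matrix (Fin 2) (Fin 2) A) 1 0 = c := rfl
theorem mat2_of_11 (a b c d : A) : (!![a, b; c, d] : Matrix (Fin 2) (Fin 2) A) 1 1 = d := rfl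

theorem mat2_one_00 : (1 : Matrix (Fin 2) (Fin 2) A) 0 0 = 1 := rfl
theorem mat2_one_01 : (1 : Matrix (Fin 2) (Fin 2) A) 0 1 = 0 := rfl
theorem mat2_one_10 : (1 : Matrix (Fin 2) (Fin 2) A) 1 0 = 0 := rfl
theorem mat2_one_11 : (1 : Matrix (Fin 2) (Fin 2) A) 1 1 = 1 := rfl

/-- The diagonal matrix `diag(1, u)`. -/
def dg (u : A) : Matrix (Fin 2) (Fin 2) A := !![1, 0; 0, u]

theorem dg_mul_dg (u v : A) : dg u * dg v = dg (u * v) := by
  apply mat2_ext <;> simp only [dg, mat2_mul_apply, mat2_of_00, mat2_of_01, mat2_of_10,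
    mat2_of_11] <;> ring

theorem dg_one : dg (1 : A) = 1 := by
  apply mat2_ext <;> simp only [dg, mat2_of_00, mat2_of_01, mat2_of_10,
    mat2_of_11, mat2_one_00, mat2_one_01, mat2_one_10, mat2_one_11]

theorem dg_mul_mul_dg (v u : A) (M : Matrix (Fin 2) (Fin 2) A) :
    dg v * M * dg u = !![M 0 0, M 0 1 * u; v * M 1 0, v * M 1 1 * u] := by
  apply mat2_ext <;> simp only [dg, mat2_mul_apply, mat2_of_00, mat2_of_01, mat2_of_10,
    mat2_of_11] <;> ring

theorem dgneg_mul (M : Matrix (Fin 2) (Fin 2) A) :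
    dg (-1) * M = !![M 0 0, M 0 1; - M 1 0, - M 1 1] := by
  apply mat2_ext <;> simp only [dg, mat2_mul_apply, mat2_of_00, mat2_of_01, mat2_of_10,
    mat2_of_11] <;> ring

/-- A trace-zero involution in `M₂(A)`, `A` local with `2` invertible, is conjugate to
`diag(1, -1)`. -/
theorem exists_conj_diag [IsLocalRing A] (h2 : IsUnit (2 : A)) (C : Matrix (Fin 2) (Fin 2) A)
    (hC : C * C = 1) (htr : C.trace = 0) :
    ∃ P Q : Matrix (Fin 2) (Fin 2) A, P * Q = 1 ∧ Q * P = 1 ∧ Q * C * P = dg (-1) := by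
  have hw : C 1 1 = - C 0 0 := by
    have := htr
    rw [Matrix.trace_fin_two] at this
    linear_combination this
  have h00 : C 0 0 * C 0 0 + C 0 1 * C 1 0 = 1 := by
    have := congrFun (congrFun hC 0) 0
    rw [mat2_mul_apply] at this
    exact this
  have key : ∀ P : Matrix (Fin 2) (Fin 2) A, IsUnit P.det → C * P = P * dg (-1) →
      ∃ P Q : Matrix (Fin 2) (Fin 2) A, P * Q = 1 ∧ Q * P = 1 ∧ Q * C * P = dg (-1) := by
    intro P hP hCP
    refine ⟨P, P⁻¹, Matrix.mul_nonsing_inv P hP, Matrix.nonsing_inv_mul P hP, ?_⟩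
    rw [Matrix.mul_assoc, hCP, ← Matrix.mul_assoc, Matrix.nonsing_inv_mul P hP, Matrix.one_mul]
  have hsum : IsUnit ((1 + C 0 0) + (1 - C 0 0)) := by
    have : (1 + C 0 0) + (1 - C 0 0) = 2 := by ring
    rw [this]; exact h2
  rcases IsLocalRing.isUnit_or_isUnit_of_isUnit_add hsum with hu | hu
  · -- `1 + x` is a unit
    refine key !![1 + C 0 0, -C 0 1; C 1 0, 1 + C 0 0] ?_ ?_
    · rw [Matrix.det_fin_two_of]
      have : (1 + C 0 0) * (1 + C 0 0) - -C 0 1 * C 1 0 = 2 * (1 + C 0 0) := by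
        linear_combination h00
      rw [this]; exact h2.mul hu
    · apply mat2_ext <;> simp only [dg, mat2_mul_apply, mat2_of_00, mat2_of_01, mat2_of_10,
        mat2_of_11, hw]
      · linear_combination h00
      · ring
      · ring
      · linear_combination (-1 : A) * h00
  · -- `1 - x` is a unit
    refine key !![C 0 1, 1 - C 0 0; 1 - C 0 0, -C 1 0] ?_ ?_
    · rw [Matrix.det_fin_two_of]
      have : C 0 1 * -C 1 0 - (1 - C 0 0) * (1 - C 0 0) = -(2 * (1 - C 0 0)) := by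
        linear_combination (-1 : A) * h00
      rw [this]; exact (h2.mul hu).neg
    · apply mat2_ext <;> simp only [dg, mat2_mul_apply, mat2_of_00, mat2_of_01, mat2_of_10,
        mat2_of_11, hw]
      · ring
      · linear_combination (-1 : A) * h00
      · linear_combination h00
      · ring

end Mat2

section Conj

variable {G : Type*} [Monoid G] {A : Type*} [CommRing A]

/-- Conjugate of a matrix representation by an invertible matrix. -/
def conjHom (m : G →* Matrix (Fin 2) (Fin 2) A) (P Q : Matrix (Fin 2) (Fin 2) A)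
    (hPQ : P * Q = 1) (hQP : Q * P = 1) : G →* Matrix (Fin 2) (Fin 2) A where
  toFun σ := Q * m σ * P
  map_one' := by rw [map_one, Matrix.mul_one, hQP]
  map_mul' σ σ' := by
    rw [map_mul]
    calc Q * (m σ * m σ') * P = Q * m σ * (1 : Matrix (Fin 2) (Fin 2) A) * (m σ' * P) := by
          simp only [Matrix.mul_assoc, Matrix.one_mul]
      _ = Q * m σ * P * (Q * m σ' * P) := by
          rw [← hPQ]; simp only [Matrix.mul_assoc]

theorem conjHom_apply (m : G →* Matrix (Fin 2) (Fin 2) A) (P Q : Matrix (Fin 2) (Fin 2) A)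
    (hPQ : P * Q = 1) (hQP : Q * P = 1) (σ : G) : conjHom m P Q hPQ hQP σ = Q * m σ * P := rfl

theorem trace_conj (M P Q : Matrix (Fin 2) (Fin 2) A) (hPQ : P * Q = 1) :
    (Q * M * P).trace = M.trace := by
  rw [Matrix.trace_mul_comm, ← Matrix.mul_assoc, hPQ, Matrix.one_mul]

end Conj

section Glue

variable {G : Type*} [Group G] {T : Type*} [CommRing T] [IsLocalRing T]
  {ι : Type*} {O : ι → Type*} [∀ i, CommRing (O i)] [∀ i, IsLocalRing (O i)]

/-- Joint injectivity passes to matrices. -/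
theorem mat_eq_of_forall_map_eq (ψ : ∀ i, T →+* O i)
    (hinj : ∀ t : T, (∀ i, ψ i t = 0) → t = 0) {X Y : Matrix (Fin 2) (Fin 2) T}
    (h : ∀ i, X.map (ψ i) = Y.map (ψ i)) : X = Y := by
  ext j k
  rw [← sub_eq_zero]
  refine hinj _ fun i => ?_
  have := congrFun (congrFun (h i) j) k
  rw [Matrix.map_apply, Matrix.map_apply] at this
  rw [map_sub, this, sub_self]

/-- **Gluing, diagonalised form.**  If all `m i c` are equal to `diag(1, -1)` and the off-diagonal
entries of `m i₀` take unit values, then the `m i` descend, after rescaling the second basis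
vector, to a representation over `T`. -/
theorem exists_glued_of_diag (ψ : ∀ i, T →+* O i) (hloc : ∀ i, IsLocalHom (ψ i))
    (hinj : ∀ t : T, (∀ i, ψ i t = 0) → t = 0) (h2 : IsUnit (2 : T))
    (m : ∀ i, G →* Matrix (Fin 2) (Fin 2) (O i)) (τ : G → T)
    (hτ : ∀ i σ, ψ i (τ σ) = (m i σ).trace) (c : G) (hc : ∀ i, m i c = dg (-1))
    (i₀ : ι) (σ₁ σ₂ : G) (h₁ : IsUnit (m i₀ σ₁ 0 1)) (h₂ : IsUnit (m i₀ σ₂ 1 0)) :
    ∃ M : G →* Matrix (Fin 2) (Fin 2) T, (∀ σ, (M σ).trace = τ σ) ∧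
      ∀ i, ∃ u v : O i, u * v = 1 ∧ ∀ σ, (M σ).map (ψ i) = dg v * m i σ * dg u := by
  classical
  obtain ⟨h, hh⟩ := h2.exists_right_inv
  -- entries of `m i (c σ)`
  have hcσ : ∀ i σ, m i (c * σ) = !![m i σ 0 0, m i σ 0 1; - m i σ 1 0, - m i σ 1 1] := by
    intro i σ
    rw [map_mul, hc i, dgneg_mul]
  have htr1 : ∀ i σ, ψ i (τ σ) = m i σ 0 0 + m i σ 1 1 := by
    intro i σ; rw [hτ, Matrix.trace_fin_two]
  have htr2 : ∀ i σ, ψ i (τ (c * σ)) = m i σ 0 0 - m i σ 1 1 := by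
    intro i σ
    rw [hτ, Matrix.trace_fin_two, hcσ, mat2_of_00, mat2_of_11]; ring
  have hψh : ∀ i, 2 * ψ i h = 1 := by
    intro i
    have := congrArg (ψ i) hh
    rwa [map_mul, map_one, map_ofNat] at this
  -- the diagonal entries
  obtain ⟨aT, haT⟩ : ∃ aT : G → T, ∀ σ, aT σ = h * (τ σ + τ (c * σ)) := ⟨_, fun _ => rfl⟩
  obtain ⟨dT, hdT⟩ : ∃ dT : G → T, ∀ σ, dT σ = h * (τ σ - τ (c * σ)) := ⟨_, fun _ => rfl⟩
  have hA : ∀ i σ, ψ i (aT σ) = m i σ 0 0 := by
    intro i σ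
    rw [haT, map_mul, map_add, htr2, htr1]
    linear_combination (m i σ 0 0) * hψh i
  have hD : ∀ i σ, ψ i (dT σ) = m i σ 1 1 := by
    intro i σ
    rw [hdT, map_mul, map_sub, htr2, htr1]
    linear_combination (m i σ 1 1) * hψh i
  -- products of off-diagonal entries
  obtain ⟨xT, hxT⟩ : ∃ xT : G → G → T, ∀ σ σ', xT σ σ' = aT (σ * σ') - aT σ * aT σ' :=
    ⟨_, fun _ _ => rfl⟩
  have hX : ∀ i σ σ', ψ i (xT σ σ') = m i σ 0 1 * m i σ' 1 0 := by
    intro i σ σ'
    rw [hxT, map_sub, map_mul, hA, hA, hA, map_mul, mat2_mul_apply]; ring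
  -- the unit
  have hunit : IsUnit (xT σ₁ σ₂) := by
    have := hloc i₀
    apply isUnit_of_map_unit (ψ i₀)
    rw [hX]; exact h₁.mul h₂
  obtain ⟨w, hw⟩ := hunit.exists_right_inv
  have hw' : ∀ i, m i σ₁ 0 1 * (m i σ₂ 1 0 * ψ i w) = 1 := by
    intro i
    have := congrArg (ψ i) hw
    rw [map_mul, map_one, hX] at this
    rw [← mul_assoc]; exact this
  obtain ⟨bT, hbT⟩ : ∃ bT : G → T, ∀ σ, bT σ = xT σ σ₂ * w := ⟨_, fun _ => rfl⟩
  obtain ⟨cT, hcT⟩ : ∃ cT : G → T, ∀ σ, cT σ = xT σ₁ σ := ⟨_, fun _ => rfl⟩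
  have hB : ∀ i σ, ψ i (bT σ) = m i σ 0 1 * (m i σ₂ 1 0 * ψ i w) := by
    intro i σ
    rw [hbT, map_mul, hX]; ring
  have hCc : ∀ i σ, ψ i (cT σ) = m i σ₁ 0 1 * m i σ 1 0 := by
    intro i σ
    rw [hcT, hX]
  obtain ⟨Mf, hMf⟩ : ∃ Mf : G → Matrix (Fin 2) (Fin 2) T,
      ∀ σ, Mf σ = !![aT σ, bT σ; cT σ, dT σ] := ⟨_, fun _ => rfl⟩
  have hM : ∀ i σ, (Mf σ).map (ψ i) =
      dg (m i σ₁ 0 1) * m i σ * dg (m i σ₂ 1 0 * ψ i w) := by
    intro i σ
    rw [dg_mul_mul_dg]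
    apply mat2_ext
    · rw [Matrix.map_apply, mat2_of_00, hMf, mat2_of_00, hA]
    · rw [Matrix.map_apply, mat2_of_01, hMf, mat2_of_01, hB]
    · rw [Matrix.map_apply, mat2_of_10, hMf, mat2_of_10, hCc]
    · rw [Matrix.map_apply, mat2_of_11, hMf, mat2_of_11, hD]
      linear_combination (-(m i σ 1 1)) * hw' i
  have hUV : ∀ i, dg (m i σ₂ 1 0 * ψ i w) * dg (m i σ₁ 0 1) = 1 := by
    intro i
    rw [dg_mul_dg, mul_comm, hw' i, dg_one]
  have hVU : ∀ i, dg (m i σ₁ 0 1) * dg (m i σ₂ 1 0 * ψ i w) = 1 := by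
    intro i
    rw [dg_mul_dg, hw' i, dg_one]
  have hone : Mf 1 = 1 := by
    apply mat_eq_of_forall_map_eq ψ hinj
    intro i
    rw [hM, map_one, Matrix.mul_one, hVU]
    exact (Matrix.map_one (ψ i) (map_zero _) (map_one _)).symm
  have hmul : ∀ σ σ', Mf (σ * σ') = Mf σ * Mf σ' := by
    intro σ σ'
    apply mat_eq_of_forall_map_eq ψ hinj
    intro i
    rw [Matrix.map_mul, hM, hM, hM, map_mul]
    calc dg (m i σ₁ 0 1) * (m i σ * m i σ') * dg (m i σ₂ 1 0 * ψ i w)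
        = dg (m i σ₁ 0 1) * m i σ * (1 : Matrix (Fin 2) (Fin 2) (O i)) *
            (m i σ' * dg (m i σ₂ 1 0 * ψ i w)) := by
          simp only [Matrix.mul_assoc, Matrix.one_mul]
      _ = _ := by
          rw [← hUV i]; simp only [Matrix.mul_assoc]
  refine ⟨{ toFun := Mf, map_one' := hone, map_mul' := hmul }, ?_, ?_⟩
  · intro σ
    show (Mf σ).trace = τ σ
    rw [Matrix.trace_fin_two, hMf, mat2_of_00, mat2_of_11, haT, hdT]
    linear_combination (τ σ) * hh
  · intro i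
    exact ⟨m i σ₂ 1 0 * ψ i w, m i σ₁ 0 1, by rw [mul_comm]; exact hw' i, fun σ => hM i σ⟩

/-- **Gluing, matrix form.** -/
theorem exists_glued (ψ : ∀ i, T →+* O i) (hloc : ∀ i, IsLocalHom (ψ i))
    (hinj : ∀ t : T, (∀ i, ψ i t = 0) → t = 0) (h2 : IsUnit (2 : T))
    (m : ∀ i, G →* Matrix (Fin 2) (Fin 2) (O i)) (τ : G → T)
    (hτ : ∀ i σ, ψ i (τ σ) = (m i σ).trace) (c : G) (hcc : c * c = 1) (hτc : τ c = 0)
    (i₀ : ι)
    (hirr : ∀ P Q : Matrix (Fin 2) (Fin 2) (O i₀), P * Q = 1 → Q * P = 1 →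
      (∃ σ, IsUnit ((Q * m i₀ σ * P) 0 1)) ∧ (∃ σ, IsUnit ((Q * m i₀ σ * P) 1 0))) :
    ∃ M : G →* Matrix (Fin 2) (Fin 2) T, (∀ σ, (M σ).trace = τ σ) ∧
      ∀ i, ∃ P Q : Matrix (Fin 2) (Fin 2) (O i), P * Q = 1 ∧ Q * P = 1 ∧
        ∀ σ, (M σ).map (ψ i) = Q * m i σ * P := by
  classical
  have h2' : ∀ i, IsUnit (2 : O i) := by
    intro i
    have := h2.map (ψ i)
    rwa [map_ofNat] at this
  have hex : ∀ i, ∃ P Q : Matrix (Fin 2) (Fin 2) (O i),
      P * Q = 1 ∧ Q * P = 1 ∧ Q * m i c * P = dg (-1) := by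
    intro i
    refine exists_conj_diag (h2' i) (m i c) ?_ ?_
    · rw [← map_mul, hcc, map_one]
    · rw [← hτ, hτc, map_zero]
  choose P Q hPQ hQP hD using hex
  obtain ⟨⟨σ₁, h₁⟩, ⟨σ₂, h₂⟩⟩ := hirr (P i₀) (Q i₀) (hPQ i₀) (hQP i₀)
  obtain ⟨M, hMtr, hM⟩ := exists_glued_of_diag ψ hloc hinj h2
    (fun i => conjHom (m i) (P i) (Q i) (hPQ i) (hQP i)) τ
    (fun i σ => by rw [conjHom_apply, trace_conj _ _ _ (hPQ i)]; exact hτ i σ) c
    (fun i => hD i) i₀ σ₁ σ₂ h₁ h₂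
  refine ⟨M, hMtr, fun i => ?_⟩
  obtain ⟨u, v, huv, hMi⟩ := hM i
  refine ⟨P i * dg u, dg v * Q i, ?_, ?_, fun σ => ?_⟩
  · calc P i * dg u * (dg v * Q i) = P i * (dg u * dg v) * Q i := by
          simp only [Matrix.mul_assoc]
      _ = 1 := by rw [dg_mul_dg, huv, dg_one, Matrix.mul_one, hPQ]
  · calc dg v * Q i * (P i * dg u) = dg v * (Q i * P i) * dg u := by
          simp only [Matrix.mul_assoc]
      _ = 1 := by rw [hQP, Matrix.mul_one, dg_mul_dg, mul_comm, huv, dg_one]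
  · rw [hMi σ, conjHom_apply]
    simp only [Matrix.mul_assoc]

end Glue

end Fermat.Agent.S59.H307
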