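import Mathlib
import Fermat.Prelude.Def_GaloisRep_Adic
import Fermat.Agent.S59.H307.GlueMat

/-!
# S59 / layer G4, piece GLUE (helper307): dictionary `GaloisRepAdic` ↔ `2 × 2` matrices

* `Realizes ρ e m` : in the coordinates `e : ρ.V ≃ₗ (Fin 2 → A)` the representation `ρ` is given
  by the matrices `m σ`.
* `exists_realizes`, `Realizes.conj`, `Realizes.trace_eq`, `Realizes.charpoly_eq`.
* `Realizes.exists_isUnit_of_irreducible` : residual irreducibility gives unit off-diagonal
  entries.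
* `ofMat M hM` : the `GaloisRepAdic` on `Fin 2 → A` defined by an entrywise continuous matrix
  representation; `baseChange_ofMat_isEquiv`.
-/

set_option autoImplicit false
set_option linter.unusedSectionVars false
set_option linter.unusedVariables false
set_option linter.unusedSimpArgs false

noncomputable section

namespace Fermat.Agent.S59.H307

open scoped TensorProduct
open Matrix Polynomial

/-- `Gal(ℚ̄/ℚ)`. -/
abbrev GalQ : Type := AlgebraicClosure ℚ ≃ₐ[ℚ] AlgebraicClosure ℚ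

section Coord

variable {A : Type*} [CommRing A]

theorem mem_smul_top_of_forall_mem (I : Ideal A) (w : Fin 2 → A) (hw : ∀ j, w j ∈ I) :
    w ∈ I • (⊤ : Submodule A (Fin 2 → A)) := by
  have h := (Pi.basisFun A (Fin 2)).sum_repr w
  rw [← h]
  refine Submodule.sum_mem _ fun j _ => ?_
  refine Submodule.smul_mem_smul ?_ Submodule.mem_top
  rw [Pi.basisFun_repr]
  exact hw j

theorem forall_mem_of_mem_smul_top (I : Ideal A) (w : Fin 2 → A)
    (hw : w ∈ I • (⊤ : Submodule A (Fin 2 → A))) (j : Fin 2) : w j ∈ I := by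
  refine Submodule.smul_induction_on (p := fun x => x j ∈ I) hw ?_ ?_
  · intro a ha v _
    rw [Pi.smul_apply, smul_eq_mul]
    exact I.mul_mem_right _ ha
  · intro x y hx hy
    rw [Pi.add_apply]
    exact I.add_mem hx hy

theorem mul_entries_mem (I : Ideal A) (X Y : Matrix (Fin 2) (Fin 2) A)
    (hX : ∀ j k, X j k ∈ I) (j k : Fin 2) : (Y * X) j k ∈ I := by
  rw [mat2_mul_apply]
  exact I.add_mem (I.mul_mem_left _ (hX _ _)) (I.mul_mem_left _ (hX _ _))

theorem entries_mul_mem (I : Ideal A) (X Y : Matrix (Fin 2) (Fin 2) A)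
    (hX : ∀ j k, X j k ∈ I) (j k : Fin 2) : (X * Y) j k ∈ I := by
  rw [mat2_mul_apply]
  exact I.add_mem (I.mul_mem_right _ (hX _ _)) (I.mul_mem_right _ (hX _ _))

end Coord

section Realize

variable {A : Type} [CommRing A] [IsLocalRing A]

/-- In the coordinates `e`, the representation `ρ` is given by the matrices `m σ`. -/
def Realizes (ρ : GaloisRepAdic A) (e : ρ.V ≃ₗ[A] (Fin 2 → A))
    (m : GalQ → Matrix (Fin 2) (Fin 2) A) : Prop :=
  ∀ (σ : GalQ) (v : ρ.V), e (ρ.ρ σ v) = m σ *ᵥ e v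

theorem exists_realizes (ρ : GaloisRepAdic A) :
    ∃ (e : ρ.V ≃ₗ[A] (Fin 2 → A)) (m : GalQ →* Matrix (Fin 2) (Fin 2) A), Realizes ρ e m := by
  classical
  let b : Module.Basis (Fin 2) A ρ.V := Module.finBasisOfFinrankEq A ρ.V ρ.finrank_eq
  refine ⟨b.equivFun,
    { toFun := fun σ => LinearMap.toMatrix b b (ρ.ρ σ)
      map_one' := by rw [map_one]; exact LinearMap.toMatrix_one b
      map_mul' := fun σ σ' => by rw [map_mul]; exact LinearMap.toMatrix_mul b _ _ }, ?_⟩
  intro σ v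
  exact (LinearMap.toMatrix_mulVec_repr b b (ρ.ρ σ) v).symm

variable {ρ : GaloisRepAdic A} {e : ρ.V ≃ₗ[A] (Fin 2 → A)}
  {m : GalQ → Matrix (Fin 2) (Fin 2) A}

theorem toLin'OfInv_eq_mulVec {P Q : Matrix (Fin 2) (Fin 2) A}
    (hPQ : P * Q = 1) (hQP : Q * P = 1) (w : Fin 2 → A) :
    Matrix.toLin'OfInv hPQ hQP w = Q *ᵥ w := by
  ext j
  rw [Matrix.toLin'OfInv_apply, Matrix.toLin'_apply]

theorem toLin'OfInv_symm_eq_mulVec {P Q : Matrix (Fin 2) (Fin 2) A}
    (hPQ : P * Q = 1) (hQP : Q * P = 1) (w : Fin 2 → A) :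
    (Matrix.toLin'OfInv hPQ hQP).symm w = P *ᵥ w := by
  ext j
  rw [Matrix.toLin'OfInv_symm_apply, Matrix.toLin'_apply]

theorem Realizes.conj (h : Realizes ρ e m) {P Q : Matrix (Fin 2) (Fin 2) A}
    (hPQ : P * Q = 1) (hQP : Q * P = 1) :
    Realizes ρ (e.trans (Matrix.toLin'OfInv hPQ hQP)) (fun σ => Q * m σ * P) := by
  intro σ v
  rw [LinearEquiv.trans_apply, LinearEquiv.trans_apply, toLin'OfInv_eq_mulVec,
    toLin'OfInv_eq_mulVec, h σ v]
  show Q *ᵥ m σ *ᵥ e v = (Q * m σ * P) *ᵥ Q *ᵥ e v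
  rw [Matrix.mulVec_mulVec, Matrix.mulVec_mulVec, Matrix.mul_assoc (Q * m σ), hPQ, Matrix.mul_one]

theorem Realizes.conj_eq (h : Realizes ρ e m) (σ : GalQ) :
    e.conj (ρ.ρ σ) = Matrix.toLin' (m σ) := by
  apply LinearMap.ext
  intro w
  rw [LinearEquiv.conj_apply_apply, h σ, LinearEquiv.apply_symm_apply, Matrix.toLin'_apply]

theorem Realizes.trace_eq (h : Realizes ρ e m) (σ : GalQ) : ρ.trace σ = (m σ).trace := by
  unfold GaloisRepAdic.trace
  rw [← LinearMap.trace_conj' (ρ.ρ σ) e, h.conj_eq, Matrix.trace_toLin'_eq]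

theorem Realizes.charpoly_eq (h : Realizes ρ e m) (σ : GalQ) :
    LinearMap.charpoly (ρ.ρ σ) = X ^ 2 - C (m σ).trace * X + C (m σ).det := by
  rw [← LinearEquiv.charpoly_conj e, h.conj_eq, Matrix.charpoly_toLin', Matrix.charpoly_fin_two]

/-- Image of the `k`-th coordinate vector. -/
theorem Realizes.apply_symm_single (h : Realizes ρ e m) (σ : GalQ) (k : Fin 2) :
    e (ρ.ρ σ (e.symm (Pi.single k 1))) = fun j => m σ j k := by
  rw [h σ, LinearEquiv.apply_symm_apply, Matrix.mulVec_single_one]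
  rfl

/-- Residual irreducibility: the upper right entry takes a unit value. -/
theorem Realizes.exists_isUnit_01 (h : Realizes ρ e m) (hirr : ρ.residual.IsIrreducible) :
    ∃ σ, IsUnit (m σ 0 1) := by
  classical
  by_contra hcon
  rw [not_exists] at hcon
  have hirr' : ∀ W : Submodule (IsLocalRing.ResidueField A)
      (IsLocalRing.ResidueField A ⊗[A] ρ.V),
      (∀ σ : GalQ, ∀ x ∈ W, (ρ.ρ σ).baseChange (IsLocalRing.ResidueField A) x ∈ W) →
        W = ⊥ ∨ W = ⊤ := hirr
  let b : Module.Basis (Fin 2) A ρ.V := Module.Basis.ofEquivFun e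
  let bk : Module.Basis (Fin 2) (IsLocalRing.ResidueField A)
    (IsLocalRing.ResidueField A ⊗[A] ρ.V) := b.baseChange (IsLocalRing.ResidueField A)
  have hb : ∀ j, b j = e.symm (Pi.single j 1) := fun j => by
    rw [Module.Basis.coe_ofEquivFun]
  have hbk : ∀ j, bk j = (1 : IsLocalRing.ResidueField A) ⊗ₜ[A] b j :=
    fun j => Module.Basis.baseChange_apply _ _ _
  have hact : ∀ σ, ρ.ρ σ (b 1) = m σ 0 1 • b 0 + m σ 1 1 • b 1 := by
    intro σ
    apply e.injective
    rw [hb 1, h.apply_symm_single, map_add, map_smul, map_smul, hb 0,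
      LinearEquiv.apply_symm_apply, LinearEquiv.apply_symm_apply]
    ext j
    fin_cases j <;> simp
  have hsm : ∀ (a : A) (w : ρ.V), (1 : IsLocalRing.ResidueField A) ⊗ₜ[A] (a • w) =
      IsLocalRing.residue A a • ((1 : IsLocalRing.ResidueField A) ⊗ₜ[A] w) := by
    intro a w
    rw [TensorProduct.tmul_smul, TensorProduct.smul_tmul', TensorProduct.smul_tmul',
      Algebra.smul_def, IsLocalRing.ResidueField.algebraMap_eq, smul_eq_mul]
  have hres : ∀ σ, (ρ.ρ σ).baseChange (IsLocalRing.ResidueField A) (bk 1) =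
      IsLocalRing.residue A (m σ 1 1) • bk 1 := by
    intro σ
    rw [hbk 1, LinearMap.baseChange_tmul, hact σ, TensorProduct.tmul_add, hsm, hsm,
      (IsLocalRing.residue_eq_zero_iff (m σ 0 1)).mpr (hcon σ), zero_smul, zero_add]
  have hW := hirr' (Submodule.span (IsLocalRing.ResidueField A) {bk 1}) (by
    intro σ x hx
    obtain ⟨a, rfl⟩ := Submodule.mem_span_singleton.mp hx
    rw [map_smul, hres σ, smul_smul]
    exact Submodule.smul_mem _ _ (Submodule.mem_span_singleton_self _))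
  rcases hW with hW | hW
  · have h1 : bk 1 ∈ Submodule.span (IsLocalRing.ResidueField A) {bk 1} :=
      Submodule.mem_span_singleton_self _
    rw [hW] at h1
    exact bk.ne_zero 1 ((Submodule.mem_bot _).mp h1)
  · have h0 : bk 0 ∈ Submodule.span (IsLocalRing.ResidueField A) {bk 1} := by
      rw [hW]; exact Submodule.mem_top
    obtain ⟨a, ha⟩ := Submodule.mem_span_singleton.mp h0
    have h2 := congrArg (fun x => bk.repr x 0) ha
    simp at h2

theorem swap_mul_swap : (!![0, 1; 1, 0] : Matrix (Fin 2) (Fin 2) A) * !![0, 1; 1, 0] = 1 := by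
  apply mat2_ext <;> simp only [mat2_mul_apply, mat2_of_00, mat2_of_01, mat2_of_10, mat2_of_11,
    mat2_one_00, mat2_one_01, mat2_one_10, mat2_one_11] <;> ring

/-- Residual irreducibility: the lower left entry takes a unit value. -/
theorem Realizes.exists_isUnit_10 (h : Realizes ρ e m) (hirr : ρ.residual.IsIrreducible) :
    ∃ σ, IsUnit (m σ 1 0) := by
  obtain ⟨σ, hσ⟩ := (h.conj swap_mul_swap swap_mul_swap).exists_isUnit_01 hirr
  refine ⟨σ, ?_⟩
  have : (!![0, 1; 1, 0] * m σ * !![0, 1; 1, 0] : Matrix (Fin 2) (Fin 2) A) 0 1 = m σ 1 0 := by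
    simp only [mat2_mul_apply, mat2_of_00, mat2_of_01, mat2_of_10, mat2_of_11]; ring
  rw [← this]; exact hσ

end Realize

section OfMat

variable {A : Type} [CommRing A] [IsLocalRing A]

/-- Entrywise adic continuity of a matrix-valued function on `Gal(ℚ̄/ℚ)`. -/
def EntrywiseContinuous (m : GalQ → Matrix (Fin 2) (Fin 2) A) : Prop :=
  ∀ n : ℕ, ∃ L : IntermediateField ℚ (AlgebraicClosure ℚ), FiniteDimensional ℚ L ∧
    ∀ σ : GalQ, (∀ x ∈ L, σ x = x) →
      ∀ j k, (m σ - 1) j k ∈ IsLocalRing.maximalIdeal A ^ n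

theorem Realizes.entrywiseContinuous {ρ : GaloisRepAdic A} {e : ρ.V ≃ₗ[A] (Fin 2 → A)}
    {m : GalQ → Matrix (Fin 2) (Fin 2) A} (h : Realizes ρ e m) : EntrywiseContinuous m := by
  intro n
  obtain ⟨L, hL, hcont⟩ := ρ.isAdicContinuous n
  refine ⟨L, hL, fun σ hσ j k => ?_⟩
  have hmem := hcont σ hσ (e.symm (Pi.single k 1))
  have hkey : ∀ x ∈ (IsLocalRing.maximalIdeal A ^ n) • (⊤ : Submodule A ρ.V),
      e x j ∈ IsLocalRing.maximalIdeal A ^ n := by
    intro x hx
    refine Submodule.smul_induction_on (p := fun x => e x j ∈ IsLocalRing.maximalIdeal A ^ n)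
      hx ?_ ?_
    · intro a ha v _
      rw [map_smul, Pi.smul_apply, smul_eq_mul]
      exact Ideal.mul_mem_right _ _ ha
    · intro x y hx hy
      rw [map_add, Pi.add_apply]
      exact Ideal.add_mem _ hx hy
  have := hkey _ hmem
  rw [map_sub, h.apply_symm_single, LinearEquiv.apply_symm_apply, Pi.sub_apply] at this
  rw [Matrix.sub_apply, Matrix.one_apply]
  convert this using 2
  rw [Pi.single_apply]

theorem EntrywiseContinuous.conj {m : GalQ → Matrix (Fin 2) (Fin 2) A}
    (h : EntrywiseContinuous m) {P Q : Matrix (Fin 2) (Fin 2) A} (hQP : Q * P = 1) :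
    EntrywiseContinuous (fun σ => Q * m σ * P) := by
  intro n
  obtain ⟨L, hL, hcont⟩ := h n
  refine ⟨L, hL, fun σ hσ j k => ?_⟩
  have : Q * m σ * P - 1 = Q * (m σ - 1) * P := by
    rw [Matrix.mul_sub, Matrix.sub_mul, Matrix.mul_one, hQP]
  rw [this]
  exact entries_mul_mem _ _ _ (fun j k => mul_entries_mem _ _ _ (hcont σ hσ) j k) j k

/-- The linear action on `Fin 2 → A` defined by a matrix representation. -/
def matRho (M : GalQ →* Matrix (Fin 2) (Fin 2) A) : GalQ →* Module.End A (Fin 2 → A) where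
  toFun σ := Matrix.toLin' (M σ)
  map_one' := by rw [map_one, Matrix.toLin'_one]; rfl
  map_mul' σ σ' := by rw [map_mul, Matrix.toLin'_mul]; rfl

theorem matRho_apply (M : GalQ →* Matrix (Fin 2) (Fin 2) A) (σ : GalQ) (v : Fin 2 → A) :
    matRho M σ v = M σ *ᵥ v := Matrix.toLin'_apply _ _

/-- The `GaloisRepAdic` on `Fin 2 → A` defined by an entrywise continuous matrix
representation. -/
def ofMat (M : GalQ →* Matrix (Fin 2) (Fin 2) A) (hM : EntrywiseContinuous M) :
    GaloisRepAdic A where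
  V := Fin 2 → A
  finrank_eq := Module.finrank_fin_fun A
  ρ := matRho M
  isAdicContinuous := by
    intro n
    obtain ⟨L, hL, hcont⟩ := hM n
    refine ⟨L, hL, fun σ hσ v => ?_⟩
    apply mem_smul_top_of_forall_mem
    intro j
    have : matRho M σ v - v = (M σ - 1) *ᵥ v := by
      rw [matRho_apply, Matrix.sub_mulVec, Matrix.one_mulVec]
    rw [this, Matrix.mulVec, dotProduct, Fin.sum_univ_two]
    exact Ideal.add_mem _ (Ideal.mul_mem_right _ _ (hcont σ hσ _ _))
      (Ideal.mul_mem_right _ _ (hcont σ hσ _ _))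

theorem realizes_ofMat (M : GalQ →* Matrix (Fin 2) (Fin 2) A) (hM : EntrywiseContinuous M) :
    Realizes (ofMat M hM) (LinearEquiv.refl A (Fin 2 → A)) M := by
  intro σ v
  exact matRho_apply M σ v

theorem trace_ofMat (M : GalQ →* Matrix (Fin 2) (Fin 2) A) (hM : EntrywiseContinuous M)
    (σ : GalQ) : (ofMat M hM).trace σ = (M σ).trace :=
  (realizes_ofMat M hM).trace_eq σ

end OfMat

section BaseChange

variable {T O : Type} [CommRing T] [IsLocalRing T] [CommRing O] [IsLocalRing O]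

/-- Two representations with the same matrices are equivalent. -/
theorem isEquiv_of_realizes {ρ₁ ρ₂ : GaloisRepAdic O} {e₁ : ρ₁.V ≃ₗ[O] (Fin 2 → O)}
    {e₂ : ρ₂.V ≃ₗ[O] (Fin 2 → O)} {m : GalQ → Matrix (Fin 2) (Fin 2) O}
    (h₁ : Realizes ρ₁ e₁ m) (h₂ : Realizes ρ₂ e₂ m) : ρ₁.IsEquiv ρ₂ := by
  refine ⟨{ toLinearEquiv := e₁.trans e₂.symm, map_apply := fun σ x => ?_ }⟩
  apply e₂.injective
  rw [LinearEquiv.trans_apply, LinearEquiv.trans_apply, LinearEquiv.apply_symm_apply, h₁ σ x,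
    h₂ σ, LinearEquiv.apply_symm_apply]

theorem piScalarRight_baseChange_toLin' {T' O' : Type*} [CommRing T'] [CommRing O']
    [Algebra T' O'] (N : Matrix (Fin 2) (Fin 2) T') (x : O' ⊗[T'] (Fin 2 → T')) :
    TensorProduct.piScalarRight T' O' O' (Fin 2) ((Matrix.toLin' N).baseChange O' x) =
      (N.map (algebraMap T' O')) *ᵥ TensorProduct.piScalarRight T' O' O' (Fin 2) x := by
  induction x using TensorProduct.induction_on with
  | zero => rw [map_zero, map_zero, Matrix.mulVec_zero]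
  | tmul o v =>
    rw [LinearMap.baseChange_tmul, TensorProduct.piScalarRight_apply,
      TensorProduct.piScalarRightHom_tmul, TensorProduct.piScalarRight_apply,
      TensorProduct.piScalarRightHom_tmul, Matrix.toLin'_apply]
    ext j
    simp only [Matrix.mulVec, dotProduct, Fin.sum_univ_two, Matrix.map_apply, Algebra.smul_def,
      map_add, map_mul]
    ring
  | add x y hx hy =>
    rw [map_add, map_add, map_add, Matrix.mulVec_add, hx, hy]

/-- The base change of `ofMat M` along `ψ` is realised by the matrices `ψ (M σ)`. -/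
theorem exists_realizes_baseChange_ofMat (ψ : T →+* O) (hψ : IsLocalHom ψ)
    (M : GalQ →* Matrix (Fin 2) (Fin 2) T) (hM : EntrywiseContinuous M) :
    ∃ e : ((ofMat M hM).baseChangeAlong ψ hψ).V ≃ₗ[O] (Fin 2 → O),
      Realizes ((ofMat M hM).baseChangeAlong ψ hψ) e (fun σ => (M σ).map ψ) := by
  let _ : Algebra T O := ψ.toAlgebra
  refine ⟨TensorProduct.piScalarRight T O O (Fin 2), ?_⟩
  intro σ x
  exact piScalarRight_baseChange_toLin' (M σ) x

/-- If the matrices of `ρ'` are the images of the `M σ`, then `ρ'` is the base change of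
`ofMat M`. -/
theorem baseChange_ofMat_isEquiv (ψ : T →+* O) (hψ : IsLocalHom ψ)
    (M : GalQ →* Matrix (Fin 2) (Fin 2) T) (hM : EntrywiseContinuous M)
    {ρ' : GaloisRepAdic O} {e : ρ'.V ≃ₗ[O] (Fin 2 → O)} {m' : GalQ → Matrix (Fin 2) (Fin 2) O}
    (h : Realizes ρ' e m') (hMm : ∀ σ, (M σ).map ψ = m' σ) :
    ((ofMat M hM).baseChangeAlong ψ hψ).IsEquiv ρ' := by
  obtain ⟨e₁, h₁⟩ := exists_realizes_baseChange_ofMat ψ hψ M hM
  have : (fun σ => (M σ).map ψ) = m' := funext hMm
  rw [this] at h₁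
  exact isEquiv_of_realizes h₁ h

end BaseChange

end Fermat.Agent.S59.H307
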