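import Mathlib
import Fermat.Prelude.Def_GaloisRep_Adic
import Fermat.Agent.S59.H307.GlueMat
import Fermat.Agent.S59.H307.GlueRep

/-!
# S59 / layer G4, piece GLUE (helper307): descent of `ρ` from the points `O i` to `T`

Main results:

* `exists_glued_rep` : **GLUE**.  `T` local with `2` a unit, `ψ i : T →+* O i` local homs, jointly
  injective, topologically separating (`htop`, PTS-style: for every `n` a finite set of indices
  and `n'`), `ρ' i : GaloisRepAdic (O i)` with traces `ψ i (τ σ)`, an involution `c` with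
  `τ c = 0`, and one `ρ' i₀` residually irreducible.  Then there is `ρ : GaloisRepAdic T` with
  `ρ.trace = τ` and `ρ ⊗ O i ≅ ρ' i` for all `i`.
* `exists_glued_rep_of_hausdorff` : the same with joint injectivity deduced from `htop` and
  `IsHausdorff`.
* `isEquiv_of_trace_eq` : **UNIQ** (Carayol/Serre in the odd case).  Two `GaloisRepAdic A` with
  the same traces, trace `0` at an involution, one of them residually irreducible, are equivalent.
* `charpoly_eq_of_baseChange_isEquiv` : characteristic polynomials descend along a jointly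
  injective family of base changes.
-/

set_option autoImplicit false
set_option linter.unusedSectionVars false
set_option linter.unusedVariables false

noncomputable section

namespace Fermat.Agent.S59.H307

open scoped TensorProduct
open Matrix Polynomial

section Main

variable {T : Type} [CommRing T] [IsLocalRing T]
  {ι : Type*} {O : ι → Type} [∀ i, CommRing (O i)] [∀ i, IsLocalRing (O i)]

/-- **GLUE**: descent of a family of 2-dimensional Galois representations over the points `O i`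
of `T` to a representation over `T`. -/
theorem exists_glued_rep (h2 : IsUnit (2 : T))
    (ψ : ∀ i, T →+* O i) (hψ : ∀ i, IsLocalHom (ψ i))
    (hinj : ∀ t : T, (∀ i, ψ i t = 0) → t = 0)
    (htop : ∀ n : ℕ, ∃ (F : Finset ι) (n' : ℕ), ∀ t : T,
      (∀ i ∈ F, ψ i t ∈ IsLocalRing.maximalIdeal (O i) ^ n') →
        t ∈ IsLocalRing.maximalIdeal T ^ n)
    (ρ' : ∀ i, GaloisRepAdic (O i)) (τ : GalQ → T)
    (hτ : ∀ i σ, ψ i (τ σ) = (ρ' i).trace σ)
    (c : GalQ) (hcc : c * c = 1) (hτc : τ c = 0)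
    (i₀ : ι) (hirr : (ρ' i₀).residual.IsIrreducible) :
    ∃ ρ : GaloisRepAdic T, (∀ σ, ρ.trace σ = τ σ) ∧
      ∀ i, (ρ.baseChangeAlong (ψ i) (hψ i)).IsEquiv (ρ' i) := by
  classical
  choose e m hreal using fun i => exists_realizes (ρ' i)
  obtain ⟨M, hMtr, hM⟩ := exists_glued ψ hψ hinj h2 m τ
    (fun i σ => by rw [hτ, (hreal i).trace_eq]) c hcc hτc i₀
    (fun P Q hPQ hQP =>
      ⟨((hreal i₀).conj hPQ hQP).exists_isUnit_01 hirr,
        ((hreal i₀).conj hPQ hQP).exists_isUnit_10 hirr⟩)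
  choose P Q hPQ hQP hMi using hM
  have hcont : EntrywiseContinuous M := by
    intro n
    obtain ⟨F, n', hF⟩ := htop n
    have hex : ∀ i, ∃ L : IntermediateField ℚ (AlgebraicClosure ℚ), FiniteDimensional ℚ L ∧
        ∀ σ : GalQ, (∀ x ∈ L, σ x = x) →
          ∀ j k, (Q i * m i σ * P i - 1) j k ∈ IsLocalRing.maximalIdeal (O i) ^ n' :=
      fun i => ((hreal i).entrywiseContinuous.conj (hQP i)) n'
    choose L hL hLc using hex
    refine ⟨⨆ i ∈ F, L i, IntermediateField.finiteDimensional_iSup_of_finset' fun i _ => hL i,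
      fun σ hσ j k => ?_⟩
    apply hF
    intro i hi
    have hσi : ∀ x ∈ L i, σ x = x := fun x hx =>
      hσ x ((le_iSup₂ (f := fun i (_ : i ∈ F) => L i) i hi) hx)
    have := hLc i σ hσi j k
    rw [← hMi i σ] at this
    convert this using 1
    rw [Matrix.sub_apply, Matrix.sub_apply, map_sub, Matrix.map_apply, Matrix.one_apply,
      Matrix.one_apply]
    split_ifs
    · rw [map_one]
    · rw [map_zero]
  refine ⟨ofMat M hcont, fun σ => by rw [trace_ofMat, hMtr], fun i => ?_⟩
  exact baseChange_ofMat_isEquiv (ψ i) (hψ i) M hcont ((hreal i).conj (hPQ i) (hQP i))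
    (fun σ => hMi i σ)

/-- **GLUE**, with joint injectivity deduced from topological separation and Hausdorffness. -/
theorem exists_glued_rep_of_hausdorff [IsHausdorff (IsLocalRing.maximalIdeal T) T]
    (h2 : IsUnit (2 : T))
    (ψ : ∀ i, T →+* O i) (hψ : ∀ i, IsLocalHom (ψ i))
    (htop : ∀ n : ℕ, ∃ (F : Finset ι) (n' : ℕ), ∀ t : T,
      (∀ i ∈ F, ψ i t ∈ IsLocalRing.maximalIdeal (O i) ^ n') →
        t ∈ IsLocalRing.maximalIdeal T ^ n)
    (ρ' : ∀ i, GaloisRepAdic (O i)) (τ : GalQ → T)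
    (hτ : ∀ i σ, ψ i (τ σ) = (ρ' i).trace σ)
    (c : GalQ) (hcc : c * c = 1) (hτc : τ c = 0)
    (i₀ : ι) (hirr : (ρ' i₀).residual.IsIrreducible) :
    ∃ ρ : GaloisRepAdic T, (∀ σ, ρ.trace σ = τ σ) ∧
      ∀ i, (ρ.baseChangeAlong (ψ i) (hψ i)).IsEquiv (ρ' i) := by
  refine exists_glued_rep h2 ψ hψ ?_ htop ρ' τ hτ c hcc hτc i₀ hirr
  intro t ht
  apply IsHausdorff.haus (I := IsLocalRing.maximalIdeal T) ‹_› t
  intro n
  obtain ⟨F, n', hF⟩ := htop n
  have : t ∈ IsLocalRing.maximalIdeal T ^ n :=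
    hF t fun i _ => by rw [ht i]; exact Ideal.zero_mem _
  rw [SModEq.zero, smul_eq_mul, Ideal.mul_top]
  exact this

end Main

section Uniq

variable {A : Type} [CommRing A] [IsLocalRing A]

/-- **UNIQ** (Carayol–Serre rigidity, odd case): two representations over a local ring in which
`2` is a unit with the same traces, trace `0` at an involution `c`, and one of them residually
irreducible, are equivalent. -/
theorem isEquiv_of_trace_eq (h2 : IsUnit (2 : A)) (ρ₁ ρ₂ : GaloisRepAdic A)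
    (htr : ∀ σ, ρ₁.trace σ = ρ₂.trace σ) (c : GalQ) (hcc : c * c = 1) (hc : ρ₁.trace c = 0)
    (hirr : ρ₁.residual.IsIrreducible) : ρ₁.IsEquiv ρ₂ := by
  classical
  obtain ⟨e₁, m₁, h₁⟩ := exists_realizes ρ₁
  obtain ⟨e₂, m₂, h₂⟩ := exists_realizes ρ₂
  have hloc : ∀ i : Bool, IsLocalHom (RingHom.id A) := fun _ => ⟨fun a ha => ha⟩
  obtain ⟨M, -, hM⟩ := exists_glued (G := GalQ) (T := A) (ι := Bool) (O := fun _ => A)
    (fun _ => RingHom.id A) hloc (fun t ht => ht true) h2
    (fun i => if i then m₁ else m₂) (fun σ => ρ₁.trace σ)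
    (fun i σ => by
      cases i
      · simp only [Bool.false_eq_true, if_false, RingHom.id_apply]
        rw [htr, h₂.trace_eq]
      · simp only [if_true, RingHom.id_apply]
        rw [h₁.trace_eq]) c hcc hc true
    (fun P Q hPQ hQP => by
      simp only [if_true]
      exact ⟨(h₁.conj hPQ hQP).exists_isUnit_01 hirr, (h₁.conj hPQ hQP).exists_isUnit_10 hirr⟩)
  obtain ⟨P₁, Q₁, hPQ₁, hQP₁, hM₁⟩ := hM true
  obtain ⟨P₂, Q₂, hPQ₂, hQP₂, hM₂⟩ := hM false
  simp only [if_true] at hM₁
  simp only [Bool.false_eq_true, if_false] at hM₂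
  have hr₁ := h₁.conj hPQ₁ hQP₁
  have hr₂ := h₂.conj hPQ₂ hQP₂
  have : (fun σ => Q₁ * m₁ σ * P₁) = fun σ => Q₂ * m₂ σ * P₂ := by
    funext σ
    rw [← hM₁ σ, ← hM₂ σ]
  rw [this] at hr₁
  exact isEquiv_of_realizes hr₁ hr₂

end Uniq

section Charpoly

variable {T : Type} [CommRing T] [IsLocalRing T]
  {ι : Type*} {O : ι → Type} [∀ i, CommRing (O i)] [∀ i, IsLocalRing (O i)]

/-- Equivalent representations have the same characteristic polynomials. -/
theorem charpoly_eq_of_isEquiv {A : Type} [CommRing A] [IsLocalRing A] {ρ₁ ρ₂ : GaloisRepAdic A}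
    (h : ρ₁.IsEquiv ρ₂) (σ : GalQ) :
    LinearMap.charpoly (ρ₁.ρ σ) = LinearMap.charpoly (ρ₂.ρ σ) := by
  obtain ⟨E⟩ := h
  rw [← LinearEquiv.charpoly_conj E.toLinearEquiv (ρ₁.ρ σ)]
  congr 1
  apply LinearMap.ext
  intro w
  rw [LinearEquiv.conj_apply_apply, E.map_apply, LinearEquiv.apply_symm_apply]

/-- Characteristic polynomial of a base change. -/
theorem charpoly_baseChangeAlong {A B : Type} [CommRing A] [IsLocalRing A] [CommRing B]
    [IsLocalRing B] (φ : A →+* B) (hφ : IsLocalHom φ) (ρ : GaloisRepAdic A) (σ : GalQ) :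
    LinearMap.charpoly ((ρ.baseChangeAlong φ hφ).ρ σ) = (LinearMap.charpoly (ρ.ρ σ)).map φ := by
  letI : Algebra A B := φ.toAlgebra
  exact LinearMap.charpoly_baseChange (ρ.ρ σ) B

/-- Characteristic polynomials descend along a jointly injective family of base changes. -/
theorem charpoly_eq_of_baseChange_isEquiv (ψ : ∀ i, T →+* O i) (hψ : ∀ i, IsLocalHom (ψ i))
    (hinj : ∀ t : T, (∀ i, ψ i t = 0) → t = 0) (ρ : GaloisRepAdic T)
    (ρ' : ∀ i, GaloisRepAdic (O i))
    (hρ : ∀ i, (ρ.baseChangeAlong (ψ i) (hψ i)).IsEquiv (ρ' i)) (σ : GalQ) (p : T[X])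
    (hp : ∀ i, LinearMap.charpoly ((ρ' i).ρ σ) = p.map (ψ i)) :
    LinearMap.charpoly (ρ.ρ σ) = p := by
  apply Polynomial.ext
  intro n
  rw [← sub_eq_zero]
  apply hinj
  intro i
  have h1 := charpoly_eq_of_isEquiv (hρ i) σ
  rw [charpoly_baseChangeAlong, hp i] at h1
  have h2 := congrArg (fun q => q.coeff n) h1
  simp only [Polynomial.coeff_map] at h2
  rw [map_sub, h2, sub_self]

end Charpoly

end Fermat.Agent.S59.H307
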